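/-
Level lowering by patching: solving the equations at the auxiliary primes together with the linear
forms, in domains and infinitesimally near an integral solution.
-/
import Fermat.Agent.LL.Relations

set_option autoImplicit false

namespace Fermat.Agent.LL

variable {ι : Type} {g₀ : ℕ}

/-- In a domain the solutions with vanishing linear forms. -/
theorem solutions {T : Type} [CommRing T] [IsDomain T] (d : T) (z : Var ι g₀ → T)
    (hrel : ∀ x, rel d z x = 0) (hlin : ∀ x, lin z x = 0) (l : ι) :
    ve z l = 0 ∧ vf z l = -vc z l ∧ vg z l = -vb z l ∧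
      ((vb z l = 0 ∧ vc z l = 0 ∧ va z l * va z l = d * d) ∨
        (va z l = 0 ∧ (vc z l = vb z l ∨ vc z l = -vb z l) ∧ vb z l * vc z l = d * d)) := by
  have he : ve z l = 0 := hlin (.inl (l, 0))
  have hf : vf z l = -vc z l := eq_neg_of_add_eq_zero_left (hlin (.inl (l, 1)))
  have hg : vg z l = -vb z l := eq_neg_of_add_eq_zero_left (hlin (.inl (l, 2)))
  have h0 := hrel (l, 0)
  have h1 := hrel (l, 1)
  have h2 := hrel (l, 2)
  have h3 := hrel (l, 3)
  simp only [rel] at h0 h1 h2 h3
  rw [he, hf] at h1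
  rw [he, hg] at h2
  rw [hf, hg] at h3
  refine ⟨he, hf, hg, ?_⟩
  by_cases ha : va z l = 0
  · rw [ha] at h0
    refine Or.inr ⟨ha, ?_, by linear_combination h0⟩
    exact (mul_self_eq_mul_self_iff).mp (by linear_combination h3)
  · have hc : vc z l = 0 := by
      have : va z l * vc z l = 0 := by linear_combination -h1
      exact (mul_eq_zero.mp this).resolve_left ha
    have hb : vb z l = 0 := by
      have : va z l * vb z l = 0 := by linear_combination -h2
      exact (mul_eq_zero.mp this).resolve_left ha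
    exact Or.inl ⟨hb, hc, by rw [hb, hc] at h0; linear_combination h0⟩

/-- Every coordinate of such a solution is one of `0, ±d, ±i d`. -/
theorem solution_coordinates {T : Type} [CommRing T] [IsDomain T] (d i₀ : T) (hi : i₀ * i₀ = -1)
    (z : Var ι g₀ → T) (hrel : ∀ x, rel d z x = 0) (hlin : ∀ x, lin z x = 0) (v : Var ι g₀) :
    z v = 0 ∨ z v = d ∨ z v = -d ∨ z v = i₀ * d ∨ z v = -(i₀ * d) := by
  rcases v with ⟨l, k⟩ | j
  · obtain ⟨he, hf, hg, hcase⟩ := solutions d z hrel hlin l
    have key : ∀ x : T, (x = 0 ∨ x = d ∨ x = -d ∨ x = i₀ * d ∨ x = -(i₀ * d)) →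
        (-x = 0 ∨ -x = d ∨ -x = -d ∨ -x = i₀ * d ∨ -x = -(i₀ * d)) := by
      rintro x (rfl | rfl | rfl | rfl | rfl) <;> simp
    have habc : (va z l = 0 ∨ va z l = d ∨ va z l = -d ∨ va z l = i₀ * d ∨ va z l = -(i₀ * d)) ∧
        (vb z l = 0 ∨ vb z l = d ∨ vb z l = -d ∨ vb z l = i₀ * d ∨ vb z l = -(i₀ * d)) ∧
        (vc z l = 0 ∨ vc z l = d ∨ vc z l = -d ∨ vc z l = i₀ * d ∨ vc z l = -(i₀ * d)) := by
      rcases hcase with ⟨hb, hc, ha⟩ | ⟨ha, hbc, hprod⟩
      · refine ⟨?_, Or.inl hb, Or.inl hc⟩
        rcases mul_self_eq_mul_self_iff.mp ha with h | h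
        · exact Or.inr (Or.inl h)
        · exact Or.inr (Or.inr (Or.inl h))
      · have hb : vb z l = 0 ∨ vb z l = d ∨ vb z l = -d ∨ vb z l = i₀ * d ∨
            vb z l = -(i₀ * d) := by
          rcases hbc with h | h <;> rw [h] at hprod
          · rcases mul_self_eq_mul_self_iff.mp hprod with h | h
            · exact Or.inr (Or.inl h)
            · exact Or.inr (Or.inr (Or.inl h))
          · have : vb z l * vb z l = i₀ * d * (i₀ * d) := by
              linear_combination -hprod - d * d * hi
            rcases mul_self_eq_mul_self_iff.mp this with h | h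
            · exact Or.inr (Or.inr (Or.inr (Or.inl h)))
            · exact Or.inr (Or.inr (Or.inr (Or.inr h)))
        refine ⟨Or.inl ha, hb, ?_⟩
        rcases hbc with h | h <;> rw [h]
        · exact hb
        · exact key _ hb
    obtain ⟨ha, hb, hc⟩ := habc
    fin_cases k
    · exact ha
    · exact hb
    · exact hc
    · exact Or.inl he
    · have h := key _ hc
      rw [← hf] at h; exact h
    · have h := key _ hb
      rw [← hg] at h; exact h
  · exact Or.inl (hlin (.inr j))

/-- Near an integral solution, the equations and linear forms have only that solution. -/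
theorem rigid {A : Type} [CommRing A] [IsDomain A] (d : A) (hd : d ≠ 0) (h2 : (2 : A) ≠ 0)
    (c : Var ι g₀ → A) (hrc : ∀ x, rel d c x = 0) (hlc : ∀ x, lin c x = 0)
    {W : Type} [CommRing W] (ev : W →+* A) (C' : A →+* W) (hC : ∀ a, ev (C' a) = a)
    (Xv : Var ι g₀ → W) (hX : ∀ v, ev (Xv v) = c v)
    {T : Type} [CommRing T] (θ : W →+* T) (hunit : ∀ w, ev w ≠ 0 → IsUnit (θ w))
    (hrel : ∀ x, θ (rel (C' d) Xv x) = 0) (hlin : ∀ x, θ (lin Xv x) = 0) (v : Var ι g₀) :
    θ (Xv v) = θ (C' (c v)) := by
  rcases v with ⟨l, k⟩ | j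
  · obtain ⟨he, hf, hg, hcase⟩ := solutions d c hrc hlc l
    have h0 := hrel (l, 0)
    have h1 := hrel (l, 1)
    have h2' := hrel (l, 2)
    have h3 := hrel (l, 3)
    have Le : θ (ve Xv l) = 0 := hlin (.inl (l, 0))
    have Lf : θ (vf Xv l) + θ (vc Xv l) = 0 := by rw [← map_add]; exact hlin (.inl (l, 1))
    have Lg : θ (vg Xv l) + θ (vb Xv l) = 0 := by rw [← map_add]; exact hlin (.inl (l, 2))
    simp only [rel, map_add, map_sub, map_mul] at h0 h1 h2' h3
    rw [Le, eq_neg_of_add_eq_zero_left Lf] at h1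
    rw [Le, eq_neg_of_add_eq_zero_left Lg] at h2'
    rw [eq_neg_of_add_eq_zero_left Lf, eq_neg_of_add_eq_zero_left Lg] at h3
    have habc : θ (va Xv l) = θ (C' (va c l)) ∧ θ (vb Xv l) = θ (C' (vb c l)) ∧
        θ (vc Xv l) = θ (C' (vc c l)) := by
      rcases hcase with ⟨hb, hc, ha⟩ | ⟨ha, hbc, hprod⟩
      · have ha0 : va c l ≠ 0 := fun h => by
          rw [h, zero_mul] at ha; exact hd (mul_self_eq_zero.mp ha.symm)
        have hu : IsUnit (θ (va Xv l)) := hunit _ (by rw [show ev (va Xv l) = va c l from hX _]; exact ha0)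
        have hcT : θ (vc Xv l) = 0 := hu.mul_right_eq_zero.mp (by linear_combination -h1)
        have hbT : θ (vb Xv l) = 0 := hu.mul_right_eq_zero.mp (by linear_combination -h2')
        refine ⟨?_, by rw [hb, map_zero, map_zero, hbT], by rw [hc, map_zero, map_zero, hcT]⟩
        have hu' : IsUnit (θ (va Xv l + C' (va c l))) := hunit _ (by
          rw [map_add, hC, show ev (va Xv l) = va c l from hX _, ← two_mul]
          exact mul_ne_zero h2 ha0)
        rw [hbT, hcT] at h0
        have : θ (C' (va c l)) * θ (C' (va c l)) = θ (C' d) * θ (C' d) := by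
          rw [← map_mul, ← map_mul, ha, map_mul, map_mul]
        refine sub_eq_zero.mp (hu'.mul_right_eq_zero.mp ?_)
        rw [map_add]
        linear_combination h0 - this
      · have hb0 : vb c l ≠ 0 := fun h => by
          rw [h, zero_mul] at hprod; exact hd (mul_self_eq_zero.mp hprod.symm)
        have hu : IsUnit (θ (vb Xv l)) := hunit _ (by rw [show ev (vb Xv l) = vb c l from hX _]; exact hb0)
        have haT : θ (va Xv l) = 0 := hu.mul_left_eq_zero.mp (by linear_combination -h2')
        rw [haT] at h0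
        have hbcd : θ (C' (vb c l)) * θ (C' (vc c l)) = θ (C' d) * θ (C' d) := by
          rw [← map_mul, ← map_mul, hprod, map_mul, map_mul]
        have hsq : θ (C' (vc c l)) * θ (C' (vc c l)) = θ (C' (vb c l)) * θ (C' (vb c l)) := by
          rw [← map_mul, ← map_mul, ← map_mul, ← map_mul,
            show vc c l * vc c l = vb c l * vb c l by rcases hbc with h | h <;> rw [h]; ring]
        have hu1 : IsUnit (θ (vb Xv l + C' (vb c l))) := hunit _ (by
          rw [map_add, hC, show ev (vb Xv l) = vb c l from hX _, ← two_mul]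
          exact mul_ne_zero h2 hb0)
        have hu2 : IsUnit (θ (vb Xv l * vb Xv l + C' (vb c l) * C' (vb c l))) := hunit _ (by
          rw [map_add, map_mul, map_mul, hC, show ev (vb Xv l) = vb c l from hX _, ← two_mul]
          exact mul_ne_zero h2 (mul_ne_zero hb0 hb0))
        have hbT : θ (vb Xv l) = θ (C' (vb c l)) := by
          refine sub_eq_zero.mp ((hu1.mul hu2).mul_right_eq_zero.mp ?_)
          simp only [map_add, map_mul]
          linear_combination (θ (vb Xv l) * θ (vb Xv l)) * h3 * (-1) +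
            (θ (vb Xv l) * θ (vc Xv l) + θ (C' d) * θ (C' d)) * h0 -
            (θ (C' (vb c l)) * θ (C' (vc c l)) + θ (C' d) * θ (C' d)) * hbcd +
            θ (C' (vb c l)) * θ (C' (vb c l)) * hsq
        refine ⟨by rw [ha, map_zero, map_zero, haT], hbT, ?_⟩
        refine hu.mul_left_cancel ?_
        linear_combination h0 - hbcd - θ (C' (vc c l)) * hbT
    obtain ⟨hA, hB, hCc⟩ := habc
    fin_cases k
    · exact hA
    · exact hB
    · exact hCc
    · change θ (ve Xv l) = θ (C' (ve c l))
      rw [he, map_zero, map_zero, Le]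
    · change θ (vf Xv l) = θ (C' (vf c l))
      rw [hf, map_neg, map_neg, ← hCc, eq_neg_of_add_eq_zero_left Lf]
    · change θ (vg Xv l) = θ (C' (vg c l))
      rw [hg, map_neg, map_neg, ← hB, eq_neg_of_add_eq_zero_left Lg]
  · have h := hlin (.inr j)
    have h' := hlc (.inr j)
    simp only [lin] at h h'
    rw [h, h', map_zero, map_zero]

end Fermat.Agent.LL
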