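/-
Level lowering by patching: an explicit curve through an integral solution, along which the
quadratic form at `q` is not nilpotent modulo `ϖ`.
-/
import Fermat.Agent.LL.Quadric.Equations
import Fermat.Agent.LL.Algebra.Eval

set_option autoImplicit false

noncomputable section

open IsLocalRing MvPowerSeries

namespace Fermat.Agent.LL

/-- Parametrisation of an integral solution: `(a,b,c) = d·w`, `(e,f,g) = t·w` with `w` on the
quadric of squared length one. -/
theorem exists_line {T : Type} [CommRing T] [IsDomain T] {ι : Type} {g₀ : ℕ} (d i₀ : T)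
    (hd : d ≠ 0) (hi : i₀ * i₀ = -1) (c : Var ι g₀ → T) (hrc : ∀ x, rel d c x = 0)
    (hlc : ∀ x, lin c x = 0) (l : ι) :
    ∃ w₁ w₂ w₃ t : T, va c l = d * w₁ ∧ vb c l = d * w₂ ∧ vc c l = d * w₃ ∧
      w₁ * w₁ + w₂ * w₃ = 1 ∧ ve c l = t * w₁ ∧ vf c l = t * w₂ ∧ vg c l = t * w₃ ∧
      (t = 0 ∨ t = d ∨ t = -d) := by
  obtain ⟨he, hf, hg, hcase⟩ := solutions d c hrc hlc l
  rcases hcase with ⟨hb, hc, ha⟩ | ⟨ha, hbc, hprod⟩
  · rw [hb, hc, he, hf, hg, hb, hc]
    rcases mul_self_eq_mul_self_iff.mp ha with h | h <;> rw [h]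
    · exact ⟨1, 0, 0, 0, by simp⟩
    · exact ⟨-1, 0, 0, 0, by simp⟩
  · have hcoord : ∃ b₁ : T, vb c l = d * b₁ := by
      rcases solution_coordinates d i₀ hi c hrc hlc (.inl (l, 1)) with h | h | h | h | h
      · exact ⟨0, by change c _ = _; rw [h]; ring⟩
      · exact ⟨1, by change c _ = _; rw [h]; ring⟩
      · exact ⟨-1, by change c _ = _; rw [h]; ring⟩
      · exact ⟨i₀, by change c _ = _; rw [h]; ring⟩
      · exact ⟨-i₀, by change c _ = _; rw [h]; ring⟩
    obtain ⟨b₁, hb⟩ := hcoord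
    rw [he, hf, hg, ha]
    rcases hbc with h | h <;> rw [h, hb] at hprod <;> rw [h, hb]
    · have h1 : b₁ * b₁ = 1 := mul_left_cancel₀ (mul_ne_zero hd hd) (by linear_combination hprod)
      exact ⟨0, b₁, b₁, -d, by ring, rfl, rfl, by linear_combination h1, by ring, by ring, by ring,
        Or.inr (Or.inr rfl)⟩
    · have h1 : b₁ * -b₁ = 1 := mul_left_cancel₀ (mul_ne_zero hd hd) (by linear_combination hprod)
      exact ⟨0, b₁, -b₁, d, by ring, rfl, by ring, by linear_combination h1, by ring, by ring,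
        by ring, Or.inr (Or.inl rfl)⟩

variable {O : Type} [CommRing O] [IsDomain O] [IsDiscreteValuationRing O]
  [IsAdicComplete (maximalIdeal O) O] {ι : Type} {g₀ : ℕ}

/-- The curve: `v_q` moves along its line, everything else is constant. -/
theorem exists_curve {ϖ : O} (hϖ : Irreducible ϖ) (d i₀ : O) (hd : d ≠ 0)
    (hdm : d ∈ maximalIdeal O) (hi : i₀ * i₀ = -1) (c : Var ι g₀ → O)
    (hcm : ∀ v, c v ∈ maximalIdeal O) (hrc : ∀ x, rel d c x = 0) (hlc : ∀ x, lin c x = 0) (q : ι) :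
    ∃ val : Var ι g₀ → MvPowerSeries (Fin 1) O,
      (∀ v, val v ∈ maximalIdeal (MvPowerSeries (Fin 1) O)) ∧
      (∀ v, constantCoeff (val v) = c v) ∧ (∀ x, rel (C d) val x = 0) ∧
      ∃ D : Ideal (MvPowerSeries (Fin 1) O), D.IsPrime ∧ C ϖ ∈ D ∧ quad val q ∉ D := by
  classical
  choose w₁ w₂ w₃ t ha hb hc hw he hf hg ht using exists_line d i₀ hd hi c hrc hlc
  have htm : ∀ l, t l ∈ maximalIdeal O := fun l => by
    rcases ht l with h | h | h <;> rw [h]
    exacts [zero_mem _, hdm, neg_mem hdm]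
  let τ : ι → MvPowerSeries (Fin 1) O := fun l => if l = q then C (t l) + X 0 else C (t l)
  have hτ : ∀ l, constantCoeff (τ l) = t l := fun l => by
    by_cases h : l = q <;> simp [τ, h]
  let val : Var ι g₀ → MvPowerSeries (Fin 1) O := fun v => match v with
    | .inl (l, k) => ![C (d * w₁ l), C (d * w₂ l), C (d * w₃ l),
        τ l * C (w₁ l), τ l * C (w₂ l), τ l * C (w₃ l)] k
    | .inr j => C (c (.inr j))
  have hval : ∀ v, constantCoeff (val v) = c v := by
    rintro (⟨l, k⟩ | j)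
    · fin_cases k <;> simp [val, hτ, ← ha, ← hb, ← hc, ← he, ← hf, ← hg] <;> rfl
    · simp [val]
  refine ⟨val, fun v => ?_, hval, ?_, RingHom.ker (MvPowerSeries.map (residue O)), ?_, ?_, ?_⟩
  · rw [mem_maximalIdeal, mem_nonunits_iff, isUnit_iff_constantCoeff, hval]
    exact hcm v
  · rintro ⟨l, k⟩
    fin_cases k
    · change C (d * w₁ l) * C (d * w₁ l) + C (d * w₂ l) * C (d * w₃ l) - C d * C d = 0
      rw [← map_mul, ← map_mul, ← map_add, ← map_mul, ← map_sub, ← map_zero C]
      congr 1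
      linear_combination d * d * hw l
    · change C (d * w₁ l) * (τ l * C (w₂ l)) - C (d * w₂ l) * (τ l * C (w₁ l)) = 0
      simp only [map_mul]; ring
    · change C (d * w₁ l) * (τ l * C (w₃ l)) - C (d * w₃ l) * (τ l * C (w₁ l)) = 0
      simp only [map_mul]; ring
    · change C (d * w₂ l) * (τ l * C (w₃ l)) - C (d * w₃ l) * (τ l * C (w₂ l)) = 0
      simp only [map_mul]; ring
  · haveI : IsDomain (MvPowerSeries (Fin 1) (ResidueField O)) := NoZeroDivisors.to_isDomain _
    exact RingHom.ker_isPrime _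
  · rw [RingHom.mem_ker, map_C, (residue_eq_zero_iff ϖ).mpr
      (by rw [hϖ.maximalIdeal_eq]; exact Ideal.mem_span_singleton_self ϖ), map_zero]
  · have hq : quad val q = τ q * τ q := by
      change τ q * C (w₁ q) * (τ q * C (w₁ q)) + τ q * C (w₂ q) * (τ q * C (w₃ q)) = _
      have h1 : C (w₁ q) * C (w₁ q) + C (w₂ q) * C (w₃ q) = (1 : MvPowerSeries (Fin 1) O) := by
        rw [← map_mul, ← map_mul, ← map_add, hw, map_one]
      linear_combination (τ q * τ q) * h1
    rw [RingHom.mem_ker, hq, map_mul, mul_self_eq_zero]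
    intro h
    have h1 := congrArg (coeff (Finsupp.single (0 : Fin 1) 1)) h
    simp [τ, (residue_eq_zero_iff _).mpr (htm q), coeff_X] at h1

end Fermat.Agent.LL
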