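/-
Level lowering by patching: the contradiction. A domain as produced from patched data cannot exist:
it would be finite over the ring of the equations with a point isolated by the linear forms, hence
would contain the explicit curve, where the quadratic form is not nilpotent modulo `ϖ`.
-/
import Fermat.Agent.LL.Quadric.Curve
import Fermat.Agent.LL.Algebra.Dimension
import Fermat.Agent.LL.Algebra.RegularLocal
import Fermat.Agent.LL.Patch
import Fermat.Prelude.Thm_IsLocalRing_isAdicComplete_of_module_finite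

set_option autoImplicit false

noncomputable section

open IsLocalRing MvPowerSeries

namespace Fermat.Agent.LL

variable {O : Type} [CommRing O] [IsDomain O] [IsDiscreteValuationRing O]
  [IsAdicComplete (maximalIdeal O) O]

/-- A prime chain of length `k` from above `q₀` to below `o`. -/
theorem eq_bot_at_point {W : Type} [CommRing W] [IsNoetherianRing W] (I q₀ o : Ideal W)
    [q₀.IsPrime] [o.IsPrime] (hI : I ≤ q₀) (k : ℕ) (p : ℕ → Ideal W) (hp : ∀ j ≤ k, (p j).IsPrime)
    (hlt : ∀ j < k, p j < p (j + 1)) (h0 : q₀ ≤ p 0) (hk : p k = o) {n : ℕ} (hn : n = k)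
    (x : Fin n → W) (hx : ∀ i, x i ∈ o)
    (hgen : ∀ {T : Type} [CommRing T] (θ : W →+* T), (∀ w ∉ o, IsUnit (θ w)) →
      (∀ a ∈ I, θ a = 0) → (∀ i, θ (x i) = 0) → ∀ a ∈ o, θ a = 0) :
    ∀ f ∈ q₀, ∃ t ∉ o, t * f ∈ I := by
  subst hn
  have hpo : ∀ j ≤ n, p j ≤ o := by
    suffices h : ∀ d j, j + d = n → p j ≤ o from fun j hj => h (n - j) j (by omega)
    intro d
    induction d with
    | zero => intro j hj; rw [Nat.add_zero] at hj; rw [hj, hk]
    | succ d ih => exact fun j hj => (hlt j (by omega)).le.trans (ih (j + 1) (by omega))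
  have hpq : ∀ j ≤ n, q₀ ≤ p j := fun j hj => by
    induction j with
    | zero => exact h0
    | succ j ih => exact (ih (by omega)).trans (hlt j (by omega)).le
  have hIo : I ≤ o := hI.trans ((hpq n le_rfl).trans (hpo n le_rfl))
  let π := Ideal.Quotient.mk I
  have hsurj : Function.Surjective π := Ideal.Quotient.mk_surjective
  have hprime : ∀ P : Ideal W, P.IsPrime → I ≤ P → (P.map π).IsPrime := fun P hP hIP =>
    Ideal.map_isPrime_of_surjective hsurj (by rw [Ideal.mk_ker]; exact hIP)
  have hback : ∀ P : Ideal W, I ≤ P → (P.map π).comap π = P := fun P hIP => by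
    rw [Ideal.comap_map_of_surjective' _ hsurj, Ideal.mk_ker, sup_eq_left.mpr hIP]
  haveI := hprime o inferInstance hIo
  let R := Localization.AtPrime (o.map π)
  let θ₀ : W →+* R := (algebraMap (W ⧸ I) R).comp π
  have hunit : ∀ w ∉ o, IsUnit (θ₀ w) := fun w hw =>
    IsLocalization.map_units R (M := (o.map π).primeCompl) ⟨π w, fun h => hw (by
      rw [← hback o hIo]; exact h)⟩
  have hθI : ∀ a ∈ I, θ₀ a = 0 := fun a ha => by
    rw [RingHom.comp_apply, show π a = 0 from Ideal.Quotient.eq_zero_iff_mem.mpr ha, map_zero]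
  have hloc : ∀ P : Ideal W, P.IsPrime → I ≤ P → P ≤ o →
      (P.map θ₀).IsPrime ∧ (P.map θ₀).comap θ₀ = P := fun P hP hIP hPo => by
    have hdis : Disjoint ((o.map π).primeCompl : Set (W ⧸ I)) (P.map π) := by
      rw [Set.disjoint_left]
      exact fun a ha ha' => ha (Ideal.map_mono hPo ha')
    constructor
    · rw [← Ideal.map_map]
      exact IsLocalization.isPrime_of_isPrime_disjoint (o.map π).primeCompl R _
        (hprime P hP hIP) hdis
    · rw [← Ideal.map_map, ← Ideal.comap_comap, ← Ideal.under_def,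
        IsLocalization.under_map_of_isPrime_disjoint (o.map π).primeCompl R (hprime P hP hIP) hdis,
        hback P hIP]
  haveI : (q₀.map θ₀).IsPrime := (hloc q₀ inferInstance hI ((hpq n le_rfl).trans (hpo n le_rfl))).1
  have hmax : maximalIdeal R = Ideal.span (Set.range fun i => θ₀ (x i)) := by
    have hmo : maximalIdeal R = o.map θ₀ := by
      rw [← Ideal.map_map, Localization.AtPrime.map_eq_maximalIdeal]
    rw [hmo]
    refine le_antisymm (Ideal.map_le_iff_le_comap.mpr fun a ha => ?_) (Ideal.span_le.mpr ?_)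
    · rw [Ideal.mem_comap, ← Ideal.Quotient.eq_zero_iff_mem]
      exact hgen (T := R ⧸ Ideal.span (Set.range fun i => θ₀ (x i)))
        ((Ideal.Quotient.mk (Ideal.span (Set.range fun i => θ₀ (x i)))).comp θ₀) (fun w hw => (hunit w hw).map (Ideal.Quotient.mk (Ideal.span (Set.range fun i => θ₀ (x i)))))
        (fun a ha => by rw [RingHom.comp_apply, hθI a ha, map_zero])
        (fun i => by
          rw [RingHom.comp_apply, Ideal.Quotient.eq_zero_iff_mem]
          exact Ideal.subset_span ⟨i, rfl⟩) a ha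
    · rintro _ ⟨i, rfl⟩
      exact Ideal.mem_map_of_mem θ₀ (hx i)
  have hchain : HasPrimeChain (q₀.map θ₀) n := by
    refine ⟨fun j => (p j).map θ₀, Ideal.map_mono h0, fun j hj =>
      (hloc _ (hp j hj) (hI.trans (hpq j hj)) (hpo j hj)).1, fun j hj => ?_⟩
    refine lt_of_le_of_ne (Ideal.map_mono (hlt j hj).le) fun he => (hlt j hj).ne ?_
    dsimp only at he
    rw [← (hloc _ (hp j hj.le) (hI.trans (hpq j hj.le)) (hpo j hj.le)).2,
      ← (hloc _ (hp (j+1) hj) (hI.trans (hpq (j+1) hj)) (hpo (j+1) hj)).2, he]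
  have hbot := eq_bot_of_chain n (fun i => θ₀ (x i)) hmax _ hchain.le_dim
  intro f hf
  have hf0 : θ₀ f = 0 := by
    rw [← Ideal.mem_bot, ← hbot]; exact Ideal.mem_map_of_mem θ₀ hf
  obtain ⟨⟨m, hm⟩, hmf⟩ := (IsLocalization.map_eq_zero_iff (o.map π).primeCompl R (π f)).mp hf0
  obtain ⟨t, rfl⟩ := hsurj m
  refine ⟨t, fun ht => hm (Ideal.mem_map_of_mem π ht), ?_⟩
  rw [← Ideal.Quotient.eq_zero_iff_mem, map_mul]
  exact hmf

/-- No such domain exists. -/
theorem false_of_point [Finite (ResidueField O)] {ϖ δ i₀ : O} (hϖ : Irreducible ϖ) (hδ : δ ≠ 0)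
    (hδm : δ ∈ maximalIdeal O) (hi : i₀ * i₀ = -1) (h2 : (2 : O) ≠ 0) {ι : Type} [Fintype ι]
    {g₀ r : ℕ} (hr : r = 3 * Fintype.card ι + g₀) (q : ι) {B : Type} [CommRing B] [IsDomain B]
    [IsLocalRing B] [Algebra (MvPowerSeries (Fin r) O) B]
    [Module.Finite (MvPowerSeries (Fin r) O) B] (z : Var ι g₀ → B)
    (hinj : Function.Injective (algebraMap (MvPowerSeries (Fin r) O) B))
    (hz : ∀ v, z v ∈ maximalIdeal B)
    (hrel : ∀ x, rel (algebraMap (MvPowerSeries (Fin r) O) B (C δ)) z x = 0)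
    (hy : ∀ P : Ideal B, P.IsPrime → algebraMap (MvPowerSeries (Fin r) O) B (C ϖ) ∈ P →
      (∀ v, z v ∈ P) →
      ∀ j, algebraMap (MvPowerSeries (Fin r) O) B (X j) ∈ P)
    (hquad : ∀ P : Ideal B, P.IsPrime → algebraMap (MvPowerSeries (Fin r) O) B (C ϖ) ∈ P →
      quad z q ∈ P) : False := by
  classical
  let S := MvPowerSeries (Fin r) O
  letI : Algebra O B := ((algebraMap S B).comp C).toAlgebra
  haveI : IsLocalHom (algebraMap S B) := ⟨fun a ha => by
    by_contra h
    have hm : (maximalIdeal B).comap (algebraMap S B) = maximalIdeal S :=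
      IsLocalRing.eq_maximalIdeal (Ideal.isMaximal_comap_of_isIntegral_of_isMaximal _)
    have : a ∈ (maximalIdeal B).comap (algebraMap S B) := hm ▸ h
    exact this ha⟩
  haveI : IsAdicComplete (maximalIdeal B) B :=
    IsLocalRing.isAdicComplete_of_module_finite (𝒪 := S) (T := B)
  haveI : IsNoetherianRing B := IsNoetherianRing.of_finite S B
  let N := Fintype.card (Var ι g₀)
  let e : Var ι g₀ ≃ Fin N := Fintype.equivFin _
  let W := MvPowerSeries (Fin N) O
  let Xv : Var ι g₀ → W := fun v => X (e v)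
  obtain ⟨Φ, hΦX⟩ := exists_eval (O := O) (fun i => z (e.symm i)) fun i => hz _
  have hΦ : ∀ v, Φ (Xv v) = z v := fun v => by simp [Xv, hΦX]
  have hΦC : ∀ a : O, Φ (C a) = algebraMap S B (C a) := fun a => Φ.commutes a
  -- primes containing `ϖ` and the tuple are maximal
  have hmaximal : ∀ P : Ideal B, P.IsPrime → algebraMap S B (C ϖ) ∈ P →
      (∀ v, z v ∈ P) → P.IsMaximal := fun P hP hϖP hzP => by
    refine Ideal.isMaximal_of_isIntegral_of_isMaximal_comap (R := S) P ?_
    have hle : maximalIdeal S ≤ P.comap (algebraMap S B) := by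
      rw [maximalIdeal_eq_sup hϖ, sup_le_iff, Ideal.span_le, Ideal.span_le,
        Set.singleton_subset_iff]
      exact ⟨by rintro _ ⟨j, rfl⟩; exact hy P hP hϖP hzP j, hϖP⟩
    rw [← (maximalIdeal.isMaximal S).eq_of_le (Ideal.comap_ne_top _ hP.ne_top) hle]
    exact maximalIdeal.isMaximal S
  -- integral over the ring of the equations
  letI : Algebra W B := Φ.toRingHom.toAlgebra
  have hΦa : ∀ w : W, algebraMap W B w = Φ w := fun w => rfl
  set J := (maximalIdeal W).map (algebraMap W B) with hJ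
  have hzJ : ∀ v, z v ∈ J := fun v => by
    rw [← hΦ v, ← hΦa]
    refine Ideal.mem_map_of_mem _ ?_
    rw [mem_maximalIdeal, mem_nonunits_iff, isUnit_iff_constantCoeff]
    simp [Xv]
  have hϖJ : algebraMap S B (C ϖ) ∈ J := by
    rw [← hΦC, ← hΦa]
    refine Ideal.mem_map_of_mem _ ?_
    rw [mem_maximalIdeal, mem_nonunits_iff, isUnit_iff_constantCoeff]
    simp [hϖ.not_isUnit]
  have hJm : J ≤ maximalIdeal B := by
    rw [hJ, Ideal.map_le_iff_le_comap, maximalIdeal_eq_sup hϖ, sup_le_iff, Ideal.span_le,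
      Ideal.span_le, Set.singleton_subset_iff]
    refine ⟨?_, ?_⟩
    · rintro _ ⟨i, rfl⟩
      rw [SetLike.mem_coe, Ideal.mem_comap, hΦa, hΦX]
      exact hz _
    · rw [SetLike.mem_coe, Ideal.mem_comap, hΦa, hΦC]
      exact ((mem_maximalIdeal _).mpr fun h => hϖ.not_isUnit (by
          have := isUnit_of_map_unit (algebraMap S B) _ h
          rwa [isUnit_iff_constantCoeff, constantCoeff_C] at this))
  haveI : IsHausdorff J B := IsHausdorff.of_isLocalRing _ _
    (ne_top_of_le_ne_top (maximalIdeal.isMaximal B).ne_top hJm)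
  haveI : Finite (ResidueField B) := by
    haveI := finite_residueField_powerSeries (O := O) r
    obtain ⟨n, f, hf⟩ := Module.Finite.exists_fin' S B
    refine Finite.of_surjective (α := Fin n → ResidueField S)
      (fun x => residue B (f fun i => Quotient.out (x i))) fun y => ?_
    obtain ⟨b, rfl⟩ := Ideal.Quotient.mk_surjective y
    obtain ⟨a, rfl⟩ := hf b
    refine ⟨fun i => residue S (a i), ?_⟩
    change residue B _ = residue B _
    rw [← sub_eq_zero, ← map_sub, residue_eq_zero_iff, ← map_sub, pi_eq_sum_univ (_ - a), map_sum]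
    refine Ideal.sum_mem _ fun i _ => ?_
    rw [map_smul, Algebra.smul_def]
    refine Ideal.mul_mem_right _ _ ((mem_maximalIdeal _).mpr fun h => ?_)
    refine (mem_maximalIdeal _).mp ?_ (isUnit_of_map_unit (algebraMap S B) _ h)
    rw [← residue_eq_zero_iff, Pi.sub_apply, map_sub, sub_eq_zero]
    exact Ideal.Quotient.mk_out _
  haveI : Finite (B ⧸ J) := by
    refine finite_quotient_iff.mpr (Ideal.exists_pow_le_of_le_radical_of_fg ?_
      (IsNoetherian.noetherian _))
    rw [Ideal.radical_eq_sInf]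
    refine le_sInf fun P ⟨hJP, hP⟩ => ?_
    exact (IsLocalRing.eq_maximalIdeal (hmaximal P hP (hJP hϖJ) fun v => hJP (hzJ v))).ge
  haveI : Module.Finite W B := finite_of_finite_quotient (maximalIdeal W)
  -- the linear forms
  have hcard : Fintype.card (LinIx ι g₀) = r := by simp [hr, mul_comm]
  let σ : Fin r ≃ LinIx ι g₀ := ((Fintype.equivFin _).trans (finCongr hcard)).symm
  let L : Fin r → W := fun i => lin Xv (σ i)
  have hL : ∀ (i : Fin r), Φ (L i) = lin z (σ i) := fun i => by
    rw [map_lin]; exact congrArg (fun f => lin f (σ i)) (funext hΦ)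
  let q₀ : Ideal W := (⊥ : Ideal B).comap (algebraMap W B)
  have htot : HasPrimeChain (⊥ : Ideal B) (r + 1) :=
    (hasPrimeChain_powerSeries O r).of_isIntegral hinj
  -- chains of primes cut out by the linear forms
  have step : ∀ i, i ≤ r → ∃ (P : Ideal B) (k : ℕ) (p : ℕ → Ideal W), P.IsPrime ∧ k ≤ i ∧
      p k = P.comap (algebraMap W B) ∧ q₀ ≤ p 0 ∧ (∀ j ≤ k, (p j).IsPrime) ∧
      (∀ j < k, p j < p (j + 1)) ∧ (∀ j : Fin r, (j : ℕ) < i → Φ (L j) ∈ P) ∧
      HasPrimeChain P (r + 1 - k) := by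
    intro i hi
    induction i with
    | zero =>
      exact ⟨⊥, 0, fun _ => q₀, Ideal.isPrime_bot, le_rfl, rfl, le_rfl,
        fun j _ => Ideal.isPrime_bot.comap _, fun j hj => absurd hj (by omega),
        fun j hj => absurd hj (by omega), htot⟩
    | succ i ih =>
      obtain ⟨P, k, p, hP, hk, hpk, hp0, hpp, hlt, hmem, hch⟩ := ih (by omega)
      haveI := hP
      by_cases hLi : Φ (L ⟨i, by omega⟩) ∈ P
      · refine ⟨P, k, p, hP, by omega, hpk, hp0, hpp, hlt, fun j hj => ?_, hch⟩
        rcases Nat.lt_or_ge (j : ℕ) i with h | h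
        · exact hmem j h
        · rwa [show j = ⟨i, by omega⟩ from Fin.ext (by simp only; omega)]
      have hLm : Φ (L ⟨i, by omega⟩) ∈ maximalIdeal B := by
        rw [hL]
        rcases σ ⟨i, by omega⟩ with ⟨l, t⟩ | j
        · fin_cases t
          exacts [hz _, add_mem (hz _) (hz _), add_mem (hz _) (hz _)]
        · exact hz _
      rw [show r + 1 - k = (r - k) + 1 by omega] at hch
      obtain ⟨P', hP', hle, hx, hch'⟩ := exists_prime_gt P hLm hch
      refine ⟨P', k + 1, fun j => if j ≤ k then p j else P'.comap (algebraMap W B), hP', by omega,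
        ?_, ?_, fun j hj => ?_, fun j hj => ?_, fun j hj => ?_, ?_⟩
      · dsimp only; rw [if_neg (by omega)]
      · dsimp only; rw [if_pos (by omega)]; exact hp0
      · dsimp only
        rcases Nat.lt_or_ge j (k + 1) with h | h
        · rw [if_pos (by omega)]; exact hpp j (by omega)
        · rw [if_neg (by omega)]; exact hP'.comap _
      · dsimp only
        rcases Nat.lt_or_ge j k with h | h
        · rw [if_pos (by omega), if_pos (by omega)]; exact hlt j h
        · obtain rfl : j = k := by omega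
          rw [if_pos le_rfl, if_neg (by omega), hpk]
          refine lt_of_le_of_ne (Ideal.comap_mono hle) fun he => hLi ?_
          have : L ⟨i, by omega⟩ ∈ P'.comap (algebraMap W B) := hx
          rw [← he] at this
          exact this
      · rcases Nat.lt_or_ge (j : ℕ) i with h | h
        · exact hle (hmem j h)
        · rwa [show j = ⟨i, by omega⟩ from Fin.ext (by simp only; omega)]
      · rwa [show r + 1 - (k + 1) = r - k by omega]
  obtain ⟨P, k, p, hP, hkr, hpk, hp0, hpp, hlt, hmem, hch⟩ := step r le_rfl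
  have hPlin : ∀ x, lin z x ∈ P := fun x => by
    have := hmem (σ.symm x) (σ.symm x).2
    rwa [hL, Equiv.apply_symm_apply] at this
  -- the domain `B ⧸ P`
  have hmaxP : ∀ P' : Ideal B, P'.IsPrime → P ≤ P' → algebraMap S B (C ϖ) ∈ P' →
      P'.IsMaximal := fun P' hP' hle hϖP' => hmaximal P' hP' hϖP' fun v => by
    haveI := hP'
    haveI : IsDomain (B ⧸ P') := Ideal.Quotient.isDomain P'
    let π := Ideal.Quotient.mk P'
    have hd0 : π (algebraMap S B (C δ)) = 0 := by
      rw [Ideal.Quotient.eq_zero_iff_mem]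
      obtain ⟨c, rfl⟩ : ϖ ∣ δ := by
        rwa [← Ideal.mem_span_singleton, ← hϖ.maximalIdeal_eq]
      rw [map_mul, map_mul]
      exact Ideal.mul_mem_right _ _ hϖP'
    have hr' : ∀ x, rel (0 : B ⧸ P') (fun v => π (z v)) x = 0 := fun x => by
      have h := congrArg π (hrel x)
      rwa [map_rel, map_zero, hd0] at h
    have hl' : ∀ x, lin (fun v => π (z v)) x = 0 := fun x => by
      rw [← map_lin, Ideal.Quotient.eq_zero_iff_mem]; exact hle (hPlin x)
    rw [← Ideal.Quotient.eq_zero_iff_mem]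
    have := solution_coordinates (0 : B ⧸ P') (π (algebraMap S B (C i₀)))
      (by rw [← map_mul, ← map_mul, ← map_mul, hi]; simp) (fun v => π (z v)) hr' hl' v
    simpa using this
  haveI := hP
  have hϖP : algebraMap S B (C ϖ) ∉ P := fun h => by
    obtain ⟨c, hc0, hcp, hclt⟩ := hch
    have hPmax := hmaxP P hP le_rfl h
    have h0 := hclt 0 (by omega)
    exact (hcp 1 (by omega)).ne_top ((hPmax.out).2 _ (lt_of_le_of_lt hc0 h0))
  have hk : k = r := by
    by_contra hne
    rw [show r + 1 - k = (r - k) + 1 by omega] at hch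
    obtain ⟨P', hP', hle, hx, hch'⟩ := exists_prime_gt P
      (show algebraMap S B (C ϖ) ∈ maximalIdeal B from hJm hϖJ) hch
    obtain ⟨c, hc0, hcp, hclt⟩ := hch'
    exact (hcp 1 (by omega)).ne_top
      ((hmaxP P' hP' hle hx).out.2 _ (lt_of_le_of_lt hc0 (hclt 0 (by omega))))
  subst hk
  -- the coordinates at `P` are constants
  let η : O →+* B ⧸ P := (Ideal.Quotient.mk P).comp ((algebraMap S B).comp C)
  haveI : IsDomain (B ⧸ P) := Ideal.Quotient.isDomain P
  have hη : Function.Injective η := by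
    rw [injective_iff_map_eq_zero]
    intro a ha
    by_contra h0
    obtain ⟨n, u, rfl⟩ := IsDiscreteValuationRing.eq_unit_mul_pow_irreducible h0 hϖ
    rw [map_mul, map_pow, mul_eq_zero] at ha
    rcases ha with ha | ha
    · exact (u.isUnit.map η).ne_zero ha
    · exact hϖP (Ideal.Quotient.eq_zero_iff_mem.mp (eq_zero_of_pow_eq_zero ha))
  let zP : Var ι g₀ → B ⧸ P := fun v => Ideal.Quotient.mk P (z v)
  have hrP : ∀ x, rel (η δ) zP x = 0 := fun x => by
    change rel (Ideal.Quotient.mk P (algebraMap S B (C δ))) zP x = 0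
    rw [← map_rel, hrel, map_zero]
  have hlP : ∀ x, lin zP x = 0 := fun x => by
    rw [← map_lin, Ideal.Quotient.eq_zero_iff_mem]; exact hPlin x
  have hconst : ∀ v, ∃ c ∈ maximalIdeal O, η c = zP v := fun v => by
    rcases solution_coordinates (η δ) (η i₀) (by rw [← map_mul, hi, map_neg, map_one]) zP hrP hlP v
      with h | h | h | h | h <;> rw [h]
    · exact ⟨0, zero_mem _, map_zero η⟩
    · exact ⟨δ, hδm, rfl⟩
    · exact ⟨-δ, neg_mem hδm, map_neg η δ⟩
    · exact ⟨i₀ * δ, Ideal.mul_mem_left _ _ hδm, map_mul η _ _⟩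
    · exact ⟨-(i₀ * δ), neg_mem (Ideal.mul_mem_left _ _ hδm), by rw [map_neg, map_mul]⟩
  choose c hcm hc using hconst
  have hrc : ∀ x, rel δ c x = 0 := fun x => hη (by
    rw [map_rel, map_zero, show (fun v => η (c v)) = zP from funext hc]; exact hrP x)
  have hlc : ∀ x, lin c x = 0 := fun x => hη (by
    rw [map_lin, map_zero, show (fun v => η (c v)) = zP from funext hc]; exact hlP x)
  obtain ⟨ev, hev⟩ := exists_eval (O := O) (B := O) (fun i => c (e.symm i)) fun i => hcm _
  have hevX : ∀ v, ev (Xv v) = c v := fun v => by simp [Xv, hev]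
  have hevC : ∀ a, ev (C a) = a := fun a => ev.commutes a
  have hker : ∀ {T : Type} [CommRing T] (θ : W →+* T),
      (∀ v, θ (Xv v) = θ (C (c v))) → ∀ w, θ w = θ (C (ev w)) := fun {T} _ θ hθ w => by
    rw [← sub_eq_zero, ← map_sub, ← RingHom.mem_ker]
    refine (Ideal.span_le.mpr ?_ : Ideal.span (Set.range fun i => X i - C (c (e.symm i))) ≤
      RingHom.ker θ) (ker_eval_le _ (fun i => hcm _) ev hev ?_)
    · rintro _ ⟨i, rfl⟩
      rw [SetLike.mem_coe, RingHom.mem_ker, map_sub, sub_eq_zero]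
      simpa [Xv] using hθ (e.symm i)
    · rw [RingHom.mem_ker, map_sub, hevC, sub_self]
  set o := P.comap (algebraMap W B) with ho
  have hoev : ∀ w, w ∈ o ↔ ev w = 0 := fun w => by
    rw [ho, Ideal.mem_comap, ← Ideal.Quotient.eq_zero_iff_mem]
    have h := hker ((Ideal.Quotient.mk P).comp (algebraMap W B)) (fun v => by
      rw [RingHom.comp_apply, RingHom.comp_apply, hΦa, hΦa, hΦ, hΦC]
      exact (hc v).symm) w
    rw [RingHom.comp_apply, RingHom.comp_apply, hΦa (C _), hΦC] at h
    rw [h]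
    exact map_eq_zero_iff η hη
  let I : Ideal W := Ideal.span (Set.range fun x => rel (C δ) Xv x)
  have hIq : I ≤ q₀ := by
    rw [Ideal.span_le]
    rintro _ ⟨x, rfl⟩
    rw [SetLike.mem_coe, Ideal.mem_comap, Ideal.mem_bot, hΦa, map_rel, hΦC,
      show (fun v => Φ (Xv v)) = z from funext hΦ]
    exact hrel x
  haveI : q₀.IsPrime := Ideal.isPrime_bot.comap _
  have hlocal := eq_bot_at_point I q₀ o hIq _ p hpp hlt hp0 hpk rfl L
    (fun i => by rw [ho, Ideal.mem_comap, hΦa]; exact hmem i i.2)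
    (fun {T} _ θ hu hI hx a ha => by
      rw [hker θ (fun v => rigid δ hδ h2 c hrc hlc ev.toRingHom C hevC Xv hevX θ
        (fun w hw => hu w fun h => hw ((hoev w).mp h))
        (fun x => hI _ (Ideal.subset_span ⟨x, rfl⟩))
        (fun x => by
          have := hx (σ.symm x)
          rwa [show L (σ.symm x) = lin Xv x by simp [L]] at this) v) a,
        (hoev a).mp ha, map_zero, map_zero])
  -- the curve
  obtain ⟨val, hvalm, hvalc, hvalrel, D, hD, hϖD, hqD⟩ :=
    exists_curve hϖ δ i₀ hδ hδm hi c hcm hrc hlc q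
  obtain ⟨ψ, hψ⟩ := exists_eval (O := O) (fun i => val (e.symm i)) fun i => hvalm _
  have hψX : ∀ v, ψ (Xv v) = val v := fun v => by simp [Xv, hψ]
  have hψC : ∀ a, ψ (C a) = C a := fun a => ψ.commutes a
  have hψev : ∀ w, constantCoeff (ψ w) = ev w := fun w => by
    have := hker ((constantCoeff (σ := Fin 1) (R := O)).comp ψ.toRingHom) (fun v => by
      change constantCoeff (ψ _) = constantCoeff (ψ _)
      rw [hψX, hψC, hvalc, constantCoeff_C]) w
    change constantCoeff (ψ w) = constantCoeff (ψ _) at this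
    rwa [hψC, constantCoeff_C] at this
  let D' : Ideal W := D.comap ψ.toRingHom
  haveI : D'.IsPrime := hD.comap _
  have hqD' : q₀ ≤ D' := fun f hf => by
    obtain ⟨t, ht, htf⟩ := hlocal f hf
    have h0 : ψ (t * f) = 0 := by
      refine (Ideal.span_le.mpr ?_ : I ≤ RingHom.ker ψ.toRingHom) htf
      rintro _ ⟨x, rfl⟩
      rw [SetLike.mem_coe, RingHom.mem_ker]
      change ψ (rel (C δ) Xv x) = 0
      rw [map_rel, hψC, show (fun v => ψ (Xv v)) = val from funext hψX]
      exact hvalrel x
    haveI : IsDomain (MvPowerSeries (Fin 1) O) := NoZeroDivisors.to_isDomain _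
    rw [map_mul, mul_eq_zero] at h0
    rcases h0 with h0 | h0
    · exact absurd ((hoev t).mpr (by rw [← hψev, h0, map_zero])) ht
    · change ψ f ∈ D
      rw [h0]; exact zero_mem _
  obtain ⟨Q, -, hQ, hQD⟩ := Ideal.exists_ideal_over_prime_of_isIntegral D' (⊥ : Ideal B) hqD'
  have hϖQ : algebraMap S B (C ϖ) ∈ Q := by
    rw [← hΦC, ← hΦa, ← Ideal.mem_comap, hQD]
    change ψ (C ϖ) ∈ D
    rw [hψC]; exact hϖD
  have hquadQ := hquad Q hQ hϖQ
  rw [← show (fun v => Φ (Xv v)) = z from funext hΦ, ← map_quad, ← hΦa, ← Ideal.mem_comap, hQD]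
    at hquadQ
  change ψ (quad Xv q) ∈ D at hquadQ
  rw [map_quad, show (fun v => ψ (Xv v)) = val from funext hψX] at hquadQ
  exact hqD hquadQ

end Fermat.Agent.LL
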